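import Mathlib
import Fermat.Agent.S30.E4.GaussNorm
import Fermat.Agent.S48.ExitD
import Fermat.Agent.S48.G1.F1.Defs

/-!
# S48 / G1 / ES: Gauss normalisation in the function field of `Γ₁(M)` (brick `Gauss1`)

Generic twin of `S30/E4/GaussNorm.hasGaussNorm`: for ANY set `S` of Laurent series over `ℚ` with
integer coefficients, every nonzero element of `laurentBaseChange ℚ̄ (ℚ(S))` is a nonzero constant
times a quotient `P / Q` of two `q`-series with coefficients in `A` and nonzero reduction, `P` and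
`Q` lying in the `ℚ̄`-ALGEBRA generated by `S` (`A` a valuation subring of `ℚ̄` over a prime).

* `IntCoeff z` : all coefficients of `z : ℚ((q))` are integers;
* `exists_gauss_adjoin` : the strong form (numerator and denominator in the algebra);
* `hasGaussNorm_of_adjoin_int` : `ExitD.HasGaussNorm` for `laurentBaseChange ℚ̄ (ℚ(S))`;
* `intCoeff_gens1Q`, `hasGaussNorm1` : the instance `F1 M` (function field of `Γ₁(M)`).
-/

set_option autoImplicit false

open HahnSeries ModularCurve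

namespace Fermat.Agent.S48.G1.ES.Gauss1

open Fermat.Agent.S30 Fermat.Agent.S48 Fermat.Agent.S48.G1

local notation "Qb" => AlgebraicClosure ℚ

/-- All coefficients of the Laurent series are integers. -/
def IntCoeff (z : LaurentSeries ℚ) : Prop := ∀ n : ℤ, ∃ k : ℤ, z.coeff n = (k : ℚ)

theorem intCoeff_coeffMap (a : LaurentSeries ℤ) : IntCoeff (coeffMap (Int.castRingHom ℚ) a) :=
  fun n => ⟨a.coeff n, by rw [coeffMap_coeff]; rfl⟩

theorem fgCoeff_coeffEmb {z : LaurentSeries ℚ} (hz : IntCoeff z) : E4.FGCoeff (coeffEmb Qb z) := by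
  refine ⟨{1}, fun n => ?_⟩
  rw [coeffEmb_coeff]
  obtain ⟨k, hk⟩ := hz n
  rw [hk]
  have h1 : algebraMap ℚ Qb (k : ℚ) = k • (1 : Qb) := by simp
  rw [h1]
  exact Submodule.smul_mem _ _ (Submodule.subset_span (by simp))

theorem fgCoeff_of_mem_algAdjoin {S : Set (LaurentSeries ℚ)} (hS : ∀ z ∈ S, IntCoeff z)
    {x : LaurentSeries Qb} (hx : x ∈ Algebra.adjoin Qb (⇑(coeffEmb Qb) '' S)) : E4.FGCoeff x := by
  induction hx using Algebra.adjoin_induction with
  | mem x hx =>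
      obtain ⟨z, hz, rfl⟩ := hx
      exact fgCoeff_coeffEmb (hS z hz)
  | algebraMap c => exact E4.FGCoeff.const c
  | add x y _ _ hx hy => exact hx.add hy
  | mul x y _ _ hx hy => exact hx.mul hy

theorem single_zero_mem_algAdjoin (T : Set (LaurentSeries Qb)) (c : Qb) :
    (HahnSeries.single 0 c : LaurentSeries Qb) ∈ Algebra.adjoin Qb T := by
  rw [← algebraMap_laurentSeries_eq_single]
  exact (Algebra.adjoin Qb T).algebraMap_mem c

/-- **Gauss normalisation, strong form**: every nonzero element of the field generated over `ℚ̄`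
by series with integer coefficients is `c · P / Q` with `P, Q` integral `q`-series with nonzero
reduction lying in the `ℚ̄`-algebra generated by these series. -/
theorem exists_gauss_adjoin (S : Set (LaurentSeries ℚ)) (hS : ∀ z ∈ S, IntCoeff z) {ℓ : ℕ}
    [Fact ℓ.Prime] (A : ValuationSubring Qb) (hA : A.LiesOverPrime ℓ)
    (f : LaurentSeries Qb) (hfm : f ∈ IntermediateField.adjoin Qb (⇑(coeffEmb Qb) '' S))
    (hf0 : f ≠ 0) :
    ∃ (c : Qb) (P Q : LaurentSeries A),
      Congr.incl A P ∈ Algebra.adjoin Qb (⇑(coeffEmb Qb) '' S) ∧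
      Congr.incl A Q ∈ Algebra.adjoin Qb (⇑(coeffEmb Qb) '' S) ∧
      c ≠ 0 ∧ Congr.red A P ≠ 0 ∧ Congr.red A Q ≠ 0 ∧
      f * Congr.incl A Q = HahnSeries.single 0 c * Congr.incl A P := by
  obtain ⟨r, hr, t, ht, hfrt⟩ := IntermediateField.mem_adjoin_iff_div.1 hfm
  have ht0 : t ≠ 0 := by
    rintro rfl
    rw [div_zero] at hfrt
    exact hf0 hfrt
  have hr0 : r ≠ 0 := by
    rintro rfl
    rw [zero_div] at hfrt
    exact hf0 hfrt
  obtain ⟨cr, P, hcr, hP, hrP⟩ :=
    E4.exists_normalisation A hA r hr0 _ (fgCoeff_of_mem_algAdjoin hS hr).choose_spec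
  obtain ⟨ct, Q, hct, hQ, htQ⟩ :=
    E4.exists_normalisation A hA t ht0 _ (fgCoeff_of_mem_algAdjoin hS ht).choose_spec
  have hPeq : Congr.incl A P = HahnSeries.single 0 cr⁻¹ * r := by
    rw [hrP, ← mul_assoc, HahnSeries.single_mul_single, add_zero, inv_mul_cancel₀ hcr]
    exact (one_mul _).symm
  have hQeq : Congr.incl A Q = HahnSeries.single 0 ct⁻¹ * t := by
    rw [htQ, ← mul_assoc, HahnSeries.single_mul_single, add_zero, inv_mul_cancel₀ hct]
    exact (one_mul _).symm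
  refine ⟨cr / ct, P, Q, ?_, ?_, div_ne_zero hcr hct, hP, hQ, ?_⟩
  · rw [hPeq]
    exact Subalgebra.mul_mem _ (single_zero_mem_algAdjoin _ _) hr
  · rw [hQeq]
    exact Subalgebra.mul_mem _ (single_zero_mem_algAdjoin _ _) ht
  · rw [hfrt, hPeq, hQeq]
    have e1 : r / t * (HahnSeries.single 0 ct⁻¹ * t) = HahnSeries.single 0 ct⁻¹ * r := by
      rw [mul_left_comm, div_mul_cancel₀ r ht0]
    have e2 : (HahnSeries.single 0 (cr / ct) : LaurentSeries Qb) *
        (HahnSeries.single 0 cr⁻¹ * r) = HahnSeries.single 0 ct⁻¹ * r := by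
      rw [← mul_assoc, HahnSeries.single_mul_single, add_zero]
      have e3 : cr / ct * cr⁻¹ = ct⁻¹ := by field_simp
      rw [e3]
    rw [e1, e2]

/-- **Gauss normalisation** for the base change to `ℚ̄` of a field generated over `ℚ` by Laurent
series with integer coefficients. -/
theorem hasGaussNorm_of_adjoin_int (S : Set (LaurentSeries ℚ)) (hS : ∀ z ∈ S, IntCoeff z)
    {ℓ : ℕ} [Fact ℓ.Prime] (A : ValuationSubring Qb) (hA : A.LiesOverPrime ℓ) :
    ExitD.HasGaussNorm (laurentBaseChange Qb (IntermediateField.adjoin ℚ S)) A := by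
  intro f hf
  have hEq := Fermat.Agent.S24.DegreeGen.laurentBaseChange_adjoin Qb S
  have hfmem : (f : LaurentSeries Qb) ∈
      IntermediateField.adjoin Qb (⇑(coeffEmb Qb) '' S) := by
    rw [← hEq]
    exact f.2
  have hf0 : (f : LaurentSeries Qb) ≠ 0 := fun h => hf (Subtype.ext h)
  obtain ⟨c, P, Q, hPa, hQa, hc, hP, hQ, hfPQ⟩ := exists_gauss_adjoin S hS A hA _ hfmem hf0
  have hle : ∀ x ∈ Algebra.adjoin Qb (⇑(coeffEmb Qb) '' S),
      x ∈ laurentBaseChange Qb (IntermediateField.adjoin ℚ S) := by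
    intro x hx
    rw [hEq]
    exact IntermediateField.algebra_adjoin_le_adjoin Qb _ hx
  refine ⟨c, P, Q, hle _ hPa, hle _ hQa, hc, hP, hQ, ?_⟩
  apply Subtype.ext
  show (f : LaurentSeries Qb) * Congr.incl A Q =
    algebraMap Qb (LaurentSeries Qb) c * Congr.incl A P
  rw [algebraMap_laurentSeries_eq_single]
  exact hfPQ

/-! ### The instance `F1 M` -/

theorem intCoeff_qExpand_jq (d : ℕ) [NeZero d] : IntCoeff (qExpand ℚ d jq) := by
  intro n
  by_cases hn : (d : ℤ) ∣ n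
  · obtain ⟨m, rfl⟩ := hn
    rw [qExpand_coeff_mul]
    exact E4.jq_coeff_int m
  · rw [qExpand_coeff_of_not_dvd d _ hn]
    exact ⟨0, by simp⟩

theorem gq_eq_coeffMap (M : ℕ) (b : ZMod M) :
    F1.gq M b = coeffMap (Int.castRingHom ℚ)
      (HahnSeries.single (-1 : ℤ) 1 * HahnSeries.ofPowerSeries ℤ ℤ (F1.gNum M b)) := by
  rw [map_mul, coeffMap_single, Congr.coeffMap_ofPowerSeries, map_one]
  rfl

theorem intCoeff_gq (M : ℕ) (b : ZMod M) : IntCoeff (F1.gq M b) := by
  rw [gq_eq_coeffMap]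
  exact intCoeff_coeffMap _

/-- The generators of `F1Q M` have integer coefficients. -/
theorem intCoeff_gens1Q (M : ℕ) : ∀ z ∈ F1.gens1Q M, IntCoeff z := by
  rintro z (⟨d, hd, -, rfl⟩ | ⟨b, rfl⟩)
  · exact intCoeff_qExpand_jq d
  · exact intCoeff_gq M _

/-- **Brick `Gauss1`**: Gauss normalisation in the function field `F1 M` of `Γ₁(M)`, at every
valuation subring of `ℚ̄` over a prime. -/
theorem hasGaussNorm1 (M ℓ : ℕ) [Fact ℓ.Prime] (A : ValuationSubring Qb)
    (hA : A.LiesOverPrime ℓ) : ExitD.HasGaussNorm (F1.F1 M) A :=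
  hasGaussNorm_of_adjoin_int (F1.gens1Q M) (intCoeff_gens1Q M) A hA

/-- Strong form for `F1 M`: numerator and denominator in the coordinate ring `A01 M`. -/
theorem exists_gauss_A01 (M ℓ : ℕ) [Fact ℓ.Prime] (A : ValuationSubring Qb)
    (hA : A.LiesOverPrime ℓ) (f : F1.F1 M) (hf : f ≠ 0) :
    ∃ (c : Qb) (P Q : LaurentSeries A)
      (hP : Congr.incl A P ∈ F1.F1 M) (hQ : Congr.incl A Q ∈ F1.F1 M),
      (⟨_, hP⟩ : F1.F1 M) ∈ F1.A01 M ∧ (⟨_, hQ⟩ : F1.F1 M) ∈ F1.A01 M ∧
      c ≠ 0 ∧ Congr.red A P ≠ 0 ∧ Congr.red A Q ≠ 0 ∧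
      f * (⟨_, hQ⟩ : F1.F1 M) = algebraMap Qb (F1.F1 M) c * (⟨_, hP⟩ : F1.F1 M) := by
  have hEq := Fermat.Agent.S24.DegreeGen.laurentBaseChange_adjoin Qb (F1.gens1Q M)
  have hfmem : (f : LaurentSeries Qb) ∈
      IntermediateField.adjoin Qb (⇑(coeffEmb Qb) '' F1.gens1Q M) := by
    rw [← hEq]
    exact f.2
  have hf0 : (f : LaurentSeries Qb) ≠ 0 := fun h => hf (Subtype.ext h)
  obtain ⟨c, P, Q, hPa, hQa, hc, hP, hQ, hfPQ⟩ :=
    exists_gauss_adjoin (F1.gens1Q M) (intCoeff_gens1Q M) A hA _ hfmem hf0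
  have hle : ∀ x ∈ Algebra.adjoin Qb (⇑(coeffEmb Qb) '' F1.gens1Q M), x ∈ F1.F1 M := by
    intro x hx
    show x ∈ laurentBaseChange Qb (IntermediateField.adjoin ℚ (F1.gens1Q M))
    rw [hEq]
    exact IntermediateField.algebra_adjoin_le_adjoin Qb _ hx
  refine ⟨c, P, Q, hle _ hPa, hle _ hQa, hPa, hQa, hc, hP, hQ, ?_⟩
  apply Subtype.ext
  show (f : LaurentSeries Qb) * Congr.incl A Q =
    algebraMap Qb (LaurentSeries Qb) c * Congr.incl A P
  rw [algebraMap_laurentSeries_eq_single]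
  exact hfPQ

end Fermat.Agent.S48.G1.ES.Gauss1
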