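import Mathlib
import Fermat.Agent.S48.ExitDGauss
import Fermat.Agent.S48.G1.ES.Gauss1
import Fermat.Agent.S48.G1.Producer1.Bricks1

/-!
# PROGRAM DS (S48), part G1, AREA ES — the bricks `Unr1`, `ES1` of `Producer1/Bricks1.lean`

In the literal vocabulary of `Producer1/Bricks1.lean` (helper13):

* `gauss1  : Bricks1.Gauss1 M`                                   (from `ES/Gauss1.lean`);
* `unr1    : Bricks1.K1_1 M → Bricks1.Unr1 M`;
* `es1     : Bricks1.K1_1 M → Bricks1.Closed1 O → Bricks1.ES1 O`  (any `O : Objs M`).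

So the only inputs of area ES are `K1_1` (area K) and `Closed1` (F.4).
-/

set_option autoImplicit false

open HahnSeries ModularCurve AlgebraicCurve

namespace Fermat.Agent.S48.G1.ES.Brick

open Fermat.Agent.S30 Fermat.Agent.S48.CongrD Fermat.Agent.S48.ExitD Fermat.Agent.S48.G1.F1
  Fermat.Agent.S48.G1.Producer1

/-- **(K.Gauss) holds**: `Bricks1.Gauss1 M` for every `M`. -/
theorem gauss1 (M : ℕ) : Bricks1.Gauss1 M := fun q hq _ A hA => by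
  have : Fact q.Prime := ⟨hq⟩
  exact Fermat.Agent.S48.G1.ES.Gauss1.hasGaussNorm1 M q A hA

/-- **(ES.unr)**: `Bricks1.Unr1 M` from `Bricks1.K1_1 M`. -/
theorem unr1 (M : ℕ) (hK : Bricks1.K1_1 M) : Bricks1.Unr1 M := by
  intro q hq hqM m hqm A hA σ hσ f hf hdiv
  obtain ⟨g, -, hg⟩ := unr_place (F1Q M) A (gauss1 M q hq hqM A hA) (hK q hq hqM A hA) hqm hσ
    f hf hdiv
  exact ⟨g, hg⟩

/-- **(ES.es)**: `Bricks1.ES1 O` from `Bricks1.K1_1 M` and `Bricks1.Closed1 O`. -/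
theorem es1 {M : ℕ} (O : Objs M) (hK : Bricks1.K1_1 M) (hC : Bricks1.Closed1 O) :
    Bricks1.ES1 O := by
  intro ℓ hℓ hℓM m hℓm A hA σ hσ f hf hdiv
  have : Fact ℓ.Prime := ⟨hℓ⟩
  have hz : IsPrimitiveRoot (zetaL ℓ) ℓ := Fermat.Agent.S30.Producer.zeta_spec hℓ.pos
  have hT := hC ℓ hℓ hℓM
  obtain ⟨g, -, hg⟩ := es_place (F1Q M) hℓ.pos A hA (gauss1 M ℓ hℓ hℓM A hA) (hK ℓ hℓ hℓM A hA)
    (zetaL ℓ) hz (O.dia (unitL hℓ hℓM)) (O.dia_gal (unitL hℓ hℓM)) hT hℓm hσ f hf hdiv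
  obtain ⟨hmem, -⟩ := hT
  refine ⟨g, Subtype.ext ?_⟩
  have h1 : ((heckeF1 O ℓ (galF1 M σ f) : F1 M) : LaurentSeries Qb) =
      heckeSeries1 O hℓ hℓM (galF1 M σ f) :=
    coe_heckeF1 O hℓ hℓM (galF1 M σ f) (hmem (galF1 M σ f))
  show ((galF1 M σ (galF1 M σ f) : F1 M) : LaurentSeries Qb) *
      ((O.dia (unitL hℓ hℓM) f : F1 M) : LaurentSeries Qb) ^ ℓ =
    ((heckeF1 O ℓ (galF1 M σ f) : F1 M) : LaurentSeries Qb) * (g : LaurentSeries Qb) ^ m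
  rw [h1]
  exact hg

end Fermat.Agent.S48.G1.ES.Brick
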