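import Mathlib
import Fermat.Agent.S48.ExitDGauss
import Fermat.Agent.S48.G1.F1.Defs
import Fermat.Agent.S48.G1.ToES1Quot

/-!
# PROGRAM DS (S48), part G1, AREA ES — the exit (sub-captain helper128)

The two function-level clauses `unr` and `es` of `ToES1Quot.nonempty_es1Data`
(= `Betti1.nonempty_es1Data_of_kummer`), VERBATIM, for `F = F1 M`, `gal = galF1 M`, any Kummer
pairing `K` whose relation implies `p ^ n ∣ div f`, and any operators `diaF`, `heckeF` with the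
properties listed below.  Inputs (literal Props of `S48/ExitD*.lean`):

* `Gauss1 M`  : `ExitD.HasGaussNorm (F1 M) A` for every `A` over a prime `q ∤ M`   (row ES.1);
* `K1_1 M`    : `ExitD.K1Ord (F1Q M) q A` for every `A` over a prime `q ∤ M`       (AREA K);
* `DiaSpec`   : `diaF u` is a `ℚ̄`-algebra automorphism of `F1 M` commuting with `galF1`  (F.3);
* `HeckeSpec` : `heckeF ℓ x = (diaF u x)(q ^ ℓ) · ∏_{i<ℓ} x(zⁱ q^{1/ℓ})` (`u ≡ ℓ mod M`) and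
  `heckeF ℓ` preserves `m ∣ div`                                                    (F.4).

No hypothesis on diamonds and Gauss norms is needed (`ExitDGauss.es_two_gauss`).
-/

set_option autoImplicit false

open HahnSeries ModularCurve AlgebraicCurve

namespace Fermat.Agent.S48.G1.ES

open Fermat.Agent.S30 Fermat.Agent.S48.CongrD Fermat.Agent.S48.ExitD Fermat.Agent.S48.G1.F1
  Fermat.Agent.S48.G1.ToES1Quot

/-- `m ∣ div f` for `f ∈ F1 M`: divisibility of the order at every place of `F1 M / ℚ̄`. -/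
def Div1 (M m : ℕ) (f : F1 M) : Prop :=
  ∀ P : Place Qb (F1 M), (m : ℤ) ∣ P.ord f

theorem div1_iff (M m : ℕ) (f : F1 M) : Div1 M m f ↔ DivBy (F1 M) m f := Iff.rfl

/-- **(Gauss1)**: Gauss normalisation in `F1 M` at every valuation ring over a prime `q ∤ M`. -/
def Gauss1 (M : ℕ) : Prop :=
  ∀ q : ℕ, q.Prime → ¬ q ∣ M → ∀ A : ValuationSubring Qb, A.LiesOverPrime q →
    HasGaussNorm (F1 M) A

/-- **(K1_1)**: the Kummer statement (K1) for `F1 M` at every valuation ring over a prime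
`q ∤ M` (the shape of `S30.E4.K1`). -/
def K1_1 (M : ℕ) : Prop :=
  ∀ q : ℕ, q.Prime → ¬ q ∣ M → ∀ A : ValuationSubring Qb, A.LiesOverPrime q →
    K1Ord (F1Q M) q A

/-- **(DiaSpec)**: every `diaF u` is a `ℚ̄`-algebra automorphism of `F1 M` commuting with the
coefficientwise Galois action. -/
def DiaSpec (M : ℕ) (diaF : (ZMod M)ˣ → F1 M → F1 M) : Prop :=
  ∀ u : (ZMod M)ˣ, ∃ δ : F1 M ≃ₐ[Qb] F1 M, (∀ x, diaF u x = δ x) ∧
    ∀ (σ : GQ) (x : F1 M), δ (galF1 M σ x) = galF1 M σ (δ x)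

/-- **(HeckeSpec)** at the prime `ℓ`: the `q`-expansion of `heckeF ℓ x` is
`(diaF u x)(q ^ ℓ) · ∏_{i<ℓ} x(zⁱ q^{1/ℓ})` for `u ≡ ℓ mod M` and a primitive `ℓ`-th root of
unity `z`, and `heckeF ℓ` preserves `m ∣ div`. -/
def HeckeSpec (M : ℕ) (diaF : (ZMod M)ˣ → F1 M → F1 M) (heckeF : ℕ → F1 M → F1 M) (ℓ : ℕ) :
    Prop :=
  (∀ u : (ZMod M)ˣ, (u : ZMod M) = (ℓ : ZMod M) → ∀ (hℓ : 0 < ℓ) (z : Qbˣ),
      IsPrimitiveRoot z ℓ → ∀ x : F1 M,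
        ((heckeF ℓ x : F1 M) : LaurentSeries Qb) =
          heckeMul2 ℓ hℓ z (x : LaurentSeries Qb) ((diaF u x : F1 M) : LaurentSeries Qb)) ∧
    ∀ (m : ℕ) (f : F1 M), f ≠ 0 → Div1 M m f → Div1 M m (heckeF ℓ f)

theorem exists_primitiveRoot_qb (ℓ : ℕ) (hℓ : 0 < ℓ) : ∃ z : Qbˣ, IsPrimitiveRoot z ℓ := by
  have : NeZero ((ℓ : ℕ) : Qb) := ⟨by exact_mod_cast hℓ.ne'⟩
  obtain ⟨ζ, hζ⟩ := HasEnoughRootsOfUnity.exists_primitiveRoot Qb ℓ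
  have hu : IsUnit ζ := hζ.isUnit hℓ.ne'
  exact ⟨hu.unit, IsPrimitiveRoot.coe_units_iff.1 (by rw [IsUnit.unit_spec]; exact hζ)⟩

/-- **(unr) for `F1 M`**, function form: inertia at a prime `q ∤ M`, `q ∤ m`, acts trivially on
the class of `f` modulo `m`-th powers when `m ∣ div f`. -/
theorem unr_fun {M : ℕ} (hG : Gauss1 M) (hK : K1_1 M) {q m : ℕ} (hq : q.Prime) (hqM : ¬ q ∣ M)
    (hqm : ¬ q ∣ m) (A : ValuationSubring Qb) (hA : A.LiesOverPrime q) {τ : GQ}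
    (hτ : τ ∈ A.inertiaSubgroupIn ℚ) (f : F1 M) (hf : f ≠ 0) (hdiv : Div1 M m f) :
    ∃ g : F1 M, g ≠ 0 ∧ galF1 M τ f = f * g ^ m :=
  unr_place (F1Q M) A (hG q hq hqM A hA) (hK q hq hqM A hA) hqm hτ f hf hdiv

/-- **(ES) with diamond for `F1 M`**, function form: for `σ` a Frobenius at `A` over `ℓ ∤ M`,
`ℓ ∤ m`, `u ≡ ℓ mod M` and `m ∣ div f`:
`σ²(f) · (⟨u⟩ f) ^ ℓ = T_ℓ(σ f) · g ^ m`. -/
theorem es_fun {M : ℕ} (hG : Gauss1 M) (hK : K1_1 M)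
    (diaF : (ZMod M)ˣ → F1 M → F1 M) (heckeF : ℕ → F1 M → F1 M) (hD : DiaSpec M diaF)
    {ℓ m : ℕ} (hℓ : ℓ.Prime) (hℓM : ¬ ℓ ∣ M) (hH : HeckeSpec M diaF heckeF ℓ) (hℓm : ¬ ℓ ∣ m)
    (u : (ZMod M)ˣ) (hu : (u : ZMod M) = (ℓ : ZMod M))
    (A : ValuationSubring Qb) (hA : A.LiesOverPrime ℓ) {σ : GQ} (hσ : A.IsFrobeniusAt σ ℓ)
    (f : F1 M) (hf : f ≠ 0) (hdiv : Div1 M m f) :
    ∃ g : F1 M, g ≠ 0 ∧
      galF1 M σ (galF1 M σ f) * diaF u f ^ ℓ = heckeF ℓ (galF1 M σ f) * g ^ m := by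
  have : Fact ℓ.Prime := ⟨hℓ⟩
  obtain ⟨z, hz⟩ := exists_primitiveRoot_qb ℓ hℓ.pos
  obtain ⟨δ, hδ, hδg⟩ := hD u
  obtain ⟨hcoe, hdv⟩ := hH
  have hT : HeckeClosed2 (placeSetting (F1Q M)) ℓ hℓ.pos z (RingHom.id (F1 M))
      (δ : F1 M →+* F1 M) := by
    have hmem : ∀ x : F1 M, heckeMul2 ℓ hℓ.pos z ((RingHom.id (F1 M) x : F1 M) : LaurentSeries Qb)
        (((δ : F1 M →+* F1 M) x : F1 M) : LaurentSeries Qb) ∈ F1 M := fun x => by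
      have h1 := hcoe u hu hℓ.pos z hz x
      rw [hδ x] at h1
      show heckeMul2 ℓ hℓ.pos z (x : LaurentSeries Qb) ((δ x : F1 M) : LaurentSeries Qb) ∈ F1 M
      rw [← h1]
      exact (heckeF ℓ x).2
    refine ⟨hmem, fun m' f' hf' hdv' => ?_⟩
    have h2 : (⟨_, hmem f'⟩ : F1 M) = heckeF ℓ f' := by
      apply Subtype.ext
      have h1 := hcoe u hu hℓ.pos z hz f'
      rw [hδ f'] at h1
      exact h1.symm
    rw [h2]
    exact hdv m' f' hf' hdv'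
  obtain ⟨g, hg0, hg⟩ := es_place (F1Q M) hℓ.pos A hA (hG ℓ hℓ hℓM A hA) (hK ℓ hℓ hℓM A hA) z hz
    δ hδg hT hℓm hσ f hf hdiv
  refine ⟨g, hg0, Subtype.ext ?_⟩
  have h3 := hcoe u hu hℓ.pos z hz (galF1 M σ f)
  rw [hδ (galF1 M σ f)] at h3
  show ((galF1 M σ (galF1 M σ f) : F1 M) : LaurentSeries Qb) *
      ((diaF u f : F1 M) : LaurentSeries Qb) ^ ℓ =
    ((heckeF ℓ (galF1 M σ f) : F1 M) : LaurentSeries Qb) * (g : LaurentSeries Qb) ^ m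
  rw [h3, hδ f]
  exact hg

section Consumer

variable {M p : ℕ} [hp : Fact p.Prime]

/-- **The `unr` argument of `ToES1Quot.nonempty_es1Data`**, verbatim, for `F1 M`. -/
theorem unr (hG : Gauss1 M) (hK : K1_1 M) (K : KummerPairing p (F1 M) (galF1 M))
    (hR : ∀ (n : ℕ) {f : F1 M} {c : K.A →+ ZMod (p ^ n)}, K.R n f c → Div1 M (p ^ n) f) :
    ∀ q : ℕ, q.Prime → ¬ q ∣ M → q ≠ p →
      ∀ P : ValuationSubring (AlgebraicClosure ℚ), P.LiesOverPrime q →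
        ∀ σ ∈ P.inertiaSubgroupIn ℚ, ∀ (n : ℕ) {f : F1 M} {c : K.A →+ ZMod (p ^ n)},
          K.R n f c → ∃ g : F1 M, galF1 M σ f = f * g ^ (p ^ n) := by
  intro q hq hqM hqp P hP σ hσ n f c hf
  have hqn : ¬ q ∣ p ^ n := fun h =>
    hqp ((Nat.prime_dvd_prime_iff_eq hq hp.out).1 (hq.dvd_of_dvd_pow h))
  obtain ⟨g, -, hg⟩ := unr_fun hG hK hq hqM hqn P hP hσ f (K.ne_zero hf) (hR n hf)
  exact ⟨g, hg⟩

/-- **The `es` argument of `ToES1Quot.nonempty_es1Data`**, verbatim, for `F1 M`. -/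
theorem es (hG : Gauss1 M) (hK : K1_1 M) (K : KummerPairing p (F1 M) (galF1 M))
    (hR : ∀ (n : ℕ) {f : F1 M} {c : K.A →+ ZMod (p ^ n)}, K.R n f c → Div1 M (p ^ n) f)
    (diaF : (ZMod M)ˣ → F1 M → F1 M) (heckeF : ℕ → F1 M → F1 M) (hD : DiaSpec M diaF)
    (hH : ∀ ℓ, Good M p ℓ → HeckeSpec M diaF heckeF ℓ) :
    ∀ ℓ : ℕ, Good M p ℓ → ∀ u : (ZMod M)ˣ, (u : ZMod M) = (ℓ : ZMod M) →
      ∀ B : ValuationSubring (AlgebraicClosure ℚ), B.LiesOverPrime ℓ →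
        ∀ σ : GQ, B.IsFrobeniusAt σ ℓ → ∀ (n : ℕ) {f : F1 M} {c : K.A →+ ZMod (p ^ n)},
          K.R n f c → ∃ g : F1 M,
            galF1 M σ (galF1 M σ f) * diaF u f ^ ℓ = heckeF ℓ (galF1 M σ f) * g ^ (p ^ n) := by
  intro ℓ hℓ u hu B hB σ hσ n f c hf
  obtain ⟨hℓp, hℓM, hℓne⟩ := hℓ
  have hℓn : ¬ ℓ ∣ p ^ n := fun h =>
    hℓne ((Nat.prime_dvd_prime_iff_eq hℓp hp.out).1 (hℓp.dvd_of_dvd_pow h))
  obtain ⟨g, -, hg⟩ := es_fun hG hK diaF heckeF hD hℓp hℓM (hH ℓ ⟨hℓp, hℓM, hℓne⟩) hℓn u hu B hB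
    hσ f (K.ne_zero hf) (hR n hf)
  exact ⟨g, hg⟩

end Consumer

end Fermat.Agent.S48.G1.ES
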