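import Mathlib
import Fermat.Agent.S48.ExitD

/-!
# S48 / G1 / ES: the (ES) exit with twists, Gauss normal forms taken in a CLASS of elements

`ExitD.es_two` asks `ExitD.IntPres A d` for the twists `d`: every `A`-integral `q`-series of `F`
with nonzero reduction is mapped by `d` to such a series.  For a nontrivial diamond operator this
is FALSE: with `g₁ = 1 + O(q)`, `g_b = O(q)` two generators with `⟨u⟩ g₁ = g_b`, the series
`P = (g₁ + ℓ)⁻¹` is integral with nonzero reduction, but `⟨u⟩ P = (g_b + ℓ)⁻¹` has constant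
coefficient `ℓ⁻¹`.  (The Gauss VALUATION is diamond invariant; the set of Gauss units with
integral coefficients is not.)

The remedy: Gauss normal forms `f = c · P / Q` are taken with `P, Q` in a class `G ⊆ F`
(for the function field of `X₁(M)`: the `ℚ̄`-algebra generated by the generators), and the twists
are asked to preserve integrality with nonzero reduction only on `G`.

* `es_two_core` : the (ES) relation for ONE `f`, from explicit integral representatives;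
* `HasGaussNormOn F A G`, `IntPresOn A G d` : the class forms of `ExitD.HasGaussNorm`,
  `ExitD.IntPres`;
* `es_two_on` : `σ²(d₁ f) · (d₂ f) ^ ℓ = T(σ f) · h ^ m`, `T x = heckeMul2 (d₁ x) (d₂ x)`;
* `es_dia_on`, `es_dia_on'` : the two normalisations with one diamond `δ`.
-/

set_option autoImplicit false

open HahnSeries ModularCurve

namespace Fermat.Agent.S48.G1.ES.ExitOn

open Fermat.Agent.S30 Fermat.Agent.S48.CongrD Fermat.Agent.S48.ExitD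

local notation "Qb" => AlgebraicClosure ℚ
local notation "Gq" => (AlgebraicClosure ℚ ≃ₐ[ℚ] AlgebraicClosure ℚ)

variable {F : IntermediateField Qb (LaurentSeries Qb)}

/-- **(ES) with two twists for one function**, from explicit data: a Gauss normal form
`f · Q = c · P` and integral representatives with nonzero reduction of `d₁ P, d₁ Q, d₂ P, d₂ Q`. -/
theorem es_two_core (S : Setting F) {ℓ m : ℕ} [Fact ℓ.Prime] (hℓ : 0 < ℓ)
    (A : ValuationSubring Qb) (hA : A.LiesOverPrime ℓ) (hK1 : K1 S ℓ A) (z : Qbˣ)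
    (hz : IsPrimitiveRoot z ℓ) (d₁ d₂ : F →+* F) (h₁ : Twist S d₁) (h₂ : Twist S d₂)
    (hT : HeckeClosed2 S ℓ hℓ z d₁ d₂) (hℓm : ¬ ℓ ∣ m)
    {σ : Gq} (hσ : A.IsFrobeniusAt σ ℓ)
    (f : F) (hf : f ≠ 0) (hdiv : S.Dv m f)
    (c : Qb) (P Q : LaurentSeries A) (hPm : Congr.incl A P ∈ F) (hQm : Congr.incl A Q ∈ F)
    (hc : c ≠ 0) (hP : Congr.red A P ≠ 0) (hQ : Congr.red A Q ≠ 0)
    (hfPQ : f * (⟨_, hQm⟩ : F) = algebraMap Qb F c * (⟨_, hPm⟩ : F))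
    (P₁ Q₁ P₂ Q₂ : LaurentSeries A)
    (hP₁e : Congr.incl A P₁ = ((d₁ ⟨_, hPm⟩ : F) : LaurentSeries Qb))
    (hP₁ : Congr.red A P₁ ≠ 0)
    (hQ₁e : Congr.incl A Q₁ = ((d₁ ⟨_, hQm⟩ : F) : LaurentSeries Qb))
    (hQ₁ : Congr.red A Q₁ ≠ 0)
    (hP₂e : Congr.incl A P₂ = ((d₂ ⟨_, hPm⟩ : F) : LaurentSeries Qb))
    (hP₂ : Congr.red A P₂ ≠ 0)
    (hQ₂e : Congr.incl A Q₂ = ((d₂ ⟨_, hQm⟩ : F) : LaurentSeries Qb))
    (hQ₂ : Congr.red A Q₂ ≠ 0) :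
    ∃ h : F, h ≠ 0 ∧
      ((S.gal σ (S.gal σ (d₁ f)) : F) : LaurentSeries Qb) *
          ((d₂ f : F) : LaurentSeries Qb) ^ ℓ =
        heckeMul2 ℓ hℓ z ((d₁ (S.gal σ f) : F) : LaurentSeries Qb)
            ((d₂ (S.gal σ f) : F) : LaurentSeries Qb) *
          (h : LaurentSeries Qb) ^ m := by
  have hm : 0 < m := Nat.pos_of_ne_zero (fun h => hℓm (h ▸ dvd_zero ℓ))
  obtain ⟨hmem, hTdiv⟩ := hT
  have hz1 : (z : Qb) ^ ℓ = 1 := by
    have h := congrArg Units.val hz.pow_eq_one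
    rwa [Units.val_pow_eq_pow_val, Units.val_one] at h
  -- the Hecke operator on `F`
  let hk : F →* F :=
    { toFun := fun x => ⟨heckeMul2 ℓ hℓ z ((d₁ x : F) : LaurentSeries Qb)
        ((d₂ x : F) : LaurentSeries Qb), hmem x⟩
      map_one' := Subtype.ext (by
        show heckeMul2 ℓ hℓ z ((d₁ 1 : F) : LaurentSeries Qb) ((d₂ 1 : F) : LaurentSeries Qb) = 1
        rw [map_one, map_one]
        exact heckeMul2_one ℓ hℓ z)
      map_mul' := fun x y => Subtype.ext (by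
        show heckeMul2 ℓ hℓ z ((d₁ (x * y) : F) : LaurentSeries Qb)
            ((d₂ (x * y) : F) : LaurentSeries Qb) =
          heckeMul2 ℓ hℓ z ((d₁ x : F) : LaurentSeries Qb) ((d₂ x : F) : LaurentSeries Qb) *
            heckeMul2 ℓ hℓ z ((d₁ y : F) : LaurentSeries Qb) ((d₂ y : F) : LaurentSeries Qb)
        rw [map_mul, map_mul]
        exact heckeMul2_mul ℓ hℓ z hz _ _ _ _) }
  have hk_coe : ∀ x : F, ((hk x : F) : LaurentSeries Qb) =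
      heckeMul2 ℓ hℓ z ((d₁ x : F) : LaurentSeries Qb) ((d₂ x : F) : LaurentSeries Qb) :=
    fun x => rfl
  have hk0 : ∀ x : F, x ≠ 0 → hk x ≠ 0 := fun x hx h => by
    have h1 : hk x * hk x⁻¹ = 1 := by rw [← map_mul, mul_inv_cancel₀ hx, map_one]
    rw [h, zero_mul] at h1
    exact zero_ne_one h1
  obtain ⟨b, hb⟩ := IsAlgClosed.exists_pow_nat_eq c hm
  have hb0 : b ≠ 0 := by
    rintro rfl
    rw [zero_pow hm.ne'] at hb
    exact hc hb.symm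
  set B : F := algebraMap Qb F b with hB
  have hB0 : B ≠ 0 := by
    rw [hB]
    exact (map_ne_zero (algebraMap Qb F)).2 hb0
  have hBm : B ^ m = algebraMap Qb F c := by rw [hB, ← map_pow, hb]
  have hd₁B : d₁ B = B := h₁.const b
  have hd₂B : d₂ B = B := h₂.const b
  set P' : F := ⟨_, hPm⟩ with hP'
  set Q' : F := ⟨_, hQm⟩ with hQ'
  have hP0 : P' ≠ 0 := mk_ne_zero_of_red_ne_zero A hPm hP
  have hQ0 : Q' ≠ 0 := mk_ne_zero_of_red_ne_zero A hQm hQ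
  obtain ⟨f₀, hf₀⟩ : ∃ f₀ : F, f₀ = P' / Q' := ⟨_, rfl⟩
  have hf₀Q : f₀ * Q' = P' := by rw [hf₀]; exact div_mul_cancel₀ _ hQ0
  have hf₀0 : f₀ ≠ 0 := by rw [hf₀]; exact div_ne_zero hP0 hQ0
  have hff₀ : f = B ^ m * f₀ := by
    rw [hBm, hf₀, mul_div_assoc', ← hfPQ, mul_div_assoc, div_self hQ0, mul_one]
  have hdiv₀ : S.Dv m f₀ := by
    have h1 : f₀ = f * (B ^ m)⁻¹ := by
      rw [hff₀, mul_comm (B ^ m), mul_assoc, mul_inv_cancel₀ (pow_ne_zero _ hB0), mul_one]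
    rw [h1]
    exact S.dv_mul hf (inv_ne_zero (pow_ne_zero _ hB0)) hdiv (S.dv_inv (S.dv_pow_self m B))
  set g : F →+* F := S.gal σ with hg
  have g0 : ∀ x : F, x ≠ 0 → g x ≠ 0 := fun x hx => (map_ne_zero g).2 hx
  have e0₁ : ∀ x : F, x ≠ 0 → d₁ x ≠ 0 := fun x hx => (map_ne_zero d₁).2 hx
  have e0₂ : ∀ x : F, x ≠ 0 → d₂ x ≠ 0 := fun x hx => (map_ne_zero d₂).2 hx
  set s : A.decompositionSubgroup ℚ := ⟨σ, hσ.mem_decompositionSubgroup⟩ with hs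
  -- numerator and denominator of `σ²(d₁ f₀) · (d₂ f₀) ^ ℓ / T (σ f₀)`
  set U : LaurentSeries A := esNum2 A hℓ hz1 s P₁ Q₁ P₂ Q₂ with hU
  set W : LaurentSeries A := esDen2 A hℓ hz1 s P₁ Q₁ P₂ Q₂ with hW
  set U' : F := g (g (d₁ P')) * d₂ P' ^ ℓ * hk (g Q') with hU'd
  set W' : F := g (g (d₁ Q')) * d₂ Q' ^ ℓ * hk (g P') with hW'd
  have hgg : ∀ x : F, ((g (g x) : F) : LaurentSeries Qb) =
      coeffMap (σ : Qb →+* Qb) (coeffMap (σ : Qb →+* Qb) (x : LaurentSeries Qb)) := fun x => by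
    rw [hg, S.coe_gal, S.coe_gal]
  have hkg : ∀ x : F, ((hk (g x) : F) : LaurentSeries Qb) =
      heckeMul2 ℓ hℓ z (coeffMap (σ : Qb →+* Qb) ((d₁ x : F) : LaurentSeries Qb))
        (coeffMap (σ : Qb →+* Qb) ((d₂ x : F) : LaurentSeries Qb)) := fun x => by
    rw [hk_coe, hg, h₁.comm_gal, h₂.comm_gal, S.coe_gal, S.coe_gal]
  have hU' : Congr.incl A U = (U' : LaurentSeries Qb) := by
    rw [hU, esNum2, map_mul, map_mul, map_pow, incl_heckeMul2 A hℓ z hz1,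
      Congr.incl_actA, Congr.incl_actA, Congr.incl_actA, Congr.incl_actA, hP₁e, hP₂e, hQ₁e, hQ₂e]
    show _ = ((g (g (d₁ P')) : F) : LaurentSeries Qb) * ((d₂ P' : F) : LaurentSeries Qb) ^ ℓ *
      ((hk (g Q') : F) : LaurentSeries Qb)
    rw [hgg, hkg]
  have hW' : Congr.incl A W = (W' : LaurentSeries Qb) := by
    rw [hW, esDen2, esNum2, map_mul, map_mul, map_pow, incl_heckeMul2 A hℓ z hz1,
      Congr.incl_actA, Congr.incl_actA, Congr.incl_actA, Congr.incl_actA, hP₁e, hP₂e, hQ₁e, hQ₂e]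
    show _ = ((g (g (d₁ Q')) : F) : LaurentSeries Qb) * ((d₂ Q' : F) : LaurentSeries Qb) ^ ℓ *
      ((hk (g P') : F) : LaurentSeries Qb)
    rw [hgg, hkg]
  have hUm : Congr.incl A U ∈ F := by rw [hU']; exact U'.2
  have hWm : Congr.incl A W ∈ F := by rw [hW']; exact W'.2
  have hUe : (⟨_, hUm⟩ : F) = U' := Subtype.ext hU'
  have hWe : (⟨_, hWm⟩ : F) = W' := Subtype.ext hW'
  have hU0 : U' ≠ 0 :=
    mul_ne_zero (mul_ne_zero (g0 _ (g0 _ (e0₁ _ hP0))) (pow_ne_zero _ (e0₂ _ hP0)))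
      (hk0 _ (g0 _ hQ0))
  have hW0 : W' ≠ 0 :=
    mul_ne_zero (mul_ne_zero (g0 _ (g0 _ (e0₁ _ hQ0))) (pow_ne_zero _ (e0₂ _ hQ0)))
      (hk0 _ (g0 _ hP0))
  have hggf : g (g (d₁ f₀)) * g (g (d₁ Q')) = g (g (d₁ P')) := by
    rw [← map_mul, ← map_mul, ← map_mul, hf₀Q]
  have hpow : d₂ f₀ ^ ℓ * d₂ Q' ^ ℓ = d₂ P' ^ ℓ := by rw [← mul_pow, ← map_mul, hf₀Q]
  have hkf : hk (g f₀) * hk (g Q') = hk (g P') := by rw [← map_mul, ← map_mul, hf₀Q]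
  have hcross : (g (g (d₁ f₀)) * d₂ f₀ ^ ℓ) * W' = hk (g f₀) * U' := by
    calc (g (g (d₁ f₀)) * d₂ f₀ ^ ℓ) * W'
        = (g (g (d₁ f₀)) * g (g (d₁ Q'))) * (d₂ f₀ ^ ℓ * d₂ Q' ^ ℓ) * hk (g P') := by
          rw [hW'd]; ring
      _ = g (g (d₁ P')) * d₂ P' ^ ℓ * (hk (g f₀) * hk (g Q')) := by rw [hggf, hpow, hkf]
      _ = hk (g f₀) * U' := by rw [hU'd]; ring
  have hnum0 : g (g (d₁ f₀)) * d₂ f₀ ^ ℓ ≠ 0 :=
    mul_ne_zero (g0 _ (g0 _ (e0₁ _ hf₀0))) (pow_ne_zero _ (e0₂ _ hf₀0))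
  have hkgf0 : hk (g f₀) ≠ 0 := hk0 _ (g0 _ hf₀0)
  have hdivT : S.Dv m (hk (g f₀)) := hTdiv m (g f₀) (g0 _ hf₀0) (S.dv_gal σ hdiv₀)
  have hquot : U' / W' = (g (g (d₁ f₀)) * d₂ f₀ ^ ℓ) / hk (g f₀) := by
    rw [div_eq_div_iff hW0 hkgf0, mul_comm U' (hk (g f₀)), ← hcross]
  obtain ⟨H, hH⟩ := hK1 m hℓm U W hUm hWm (red_esNum2 A hℓ hA hz1 hσ P₁ Q₁ P₂ Q₂)
    (red_esNum2_ne_zero A hℓ hA hz1 hσ hP₁ hQ₁ hP₂ hQ₂) (by
      rw [hUe, hWe, hquot]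
      exact S.dv_div hnum0 hkgf0
        (S.dv_mul (g0 _ (g0 _ (e0₁ _ hf₀0))) (pow_ne_zero _ (e0₂ _ hf₀0))
          (S.dv_gal σ (S.dv_gal σ (h₁.dv hdiv₀))) (S.dv_pow (e0₂ _ hf₀0) (h₂.dv hdiv₀) ℓ))
        hdivT)
  have hH' : U' = H ^ m * W' := Subtype.ext (by rw [← hU', hH, hW']; rfl)
  have hH0 : H ≠ 0 := by
    rintro rfl
    rw [zero_pow hm.ne', zero_mul] at hH'
    exact hU0 hH'
  have hes₀ : g (g (d₁ f₀)) * d₂ f₀ ^ ℓ = hk (g f₀) * H ^ m := by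
    have h1 : (g (g (d₁ f₀)) * d₂ f₀ ^ ℓ) * W' = (hk (g f₀) * H ^ m) * W' := by
      rw [hcross, hH']; ring
    exact mul_right_cancel₀ hW0 h1
  have hkgB0 : hk (g B) ≠ 0 := hk0 _ (g0 _ hB0)
  refine ⟨g (g B) * B ^ ℓ * H / hk (g B),
    div_ne_zero (mul_ne_zero (mul_ne_zero (g0 _ (g0 _ hB0)) (pow_ne_zero _ hB0)) hH0) hkgB0, ?_⟩
  have key : g (g (d₁ f)) * d₂ f ^ ℓ = hk (g f) * (g (g B) * B ^ ℓ * H / hk (g B)) ^ m := by
    have e1 : g (g (d₁ f)) = g (g B) ^ m * g (g (d₁ f₀)) := by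
      rw [hff₀, map_mul, map_mul, map_mul, map_pow, map_pow, map_pow, hd₁B]
    have e2 : hk (g f) = hk (g B) ^ m * hk (g f₀) := by
      rw [hff₀, map_mul, map_mul, map_pow, map_pow]
    have e3 : d₂ f ^ ℓ = (B ^ ℓ) ^ m * d₂ f₀ ^ ℓ := by
      rw [hff₀, map_mul, map_pow, hd₂B, mul_pow, ← pow_mul, ← pow_mul, mul_comm m ℓ]
    rw [e1, e2, e3, div_pow, mul_pow, mul_pow]
    have h2 : g (g B) ^ m * g (g (d₁ f₀)) * ((B ^ ℓ) ^ m * d₂ f₀ ^ ℓ) =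
        g (g B) ^ m * (B ^ ℓ) ^ m * (g (g (d₁ f₀)) * d₂ f₀ ^ ℓ) := by ring
    rw [h2, hes₀]
    field_simp
  exact congrArg Subtype.val key

/-- Gauss normalisation with numerator and denominator in a class `G`: every nonzero element of
`F` is a constant times a quotient of two integral `q`-series of `F` with nonzero reduction
lying in `G`. -/
def HasGaussNormOn (F : IntermediateField Qb (LaurentSeries Qb)) (A : ValuationSubring Qb)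
    (G : Set F) : Prop :=
  ∀ f : F, f ≠ 0 → ∃ (c : Qb) (P Q : LaurentSeries A)
    (hP : Congr.incl A P ∈ F) (hQ : Congr.incl A Q ∈ F),
    (⟨_, hP⟩ : F) ∈ G ∧ (⟨_, hQ⟩ : F) ∈ G ∧
    c ≠ 0 ∧ Congr.red A P ≠ 0 ∧ Congr.red A Q ≠ 0 ∧
      f * (⟨_, hQ⟩ : F) = algebraMap Qb F c * (⟨_, hP⟩ : F)

/-- `d` maps the integral `q`-series with nonzero reduction of the class `G` to integral
`q`-series with nonzero reduction (`d` preserves the Gauss valuation on `G`). -/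
def IntPresOn (A : ValuationSubring Qb) (G : Set F) (d : F →+* F) : Prop :=
  ∀ (P : LaurentSeries A) (hP : Congr.incl A P ∈ F), (⟨_, hP⟩ : F) ∈ G → Congr.red A P ≠ 0 →
    ∃ P₁ : LaurentSeries A, Congr.incl A P₁ = ((d ⟨_, hP⟩ : F) : LaurentSeries Qb) ∧
      Congr.red A P₁ ≠ 0

theorem IntPresOn.id (A : ValuationSubring Qb) (G : Set F) : IntPresOn A G (RingHom.id F) :=
  fun P _ _ hP => ⟨P, rfl, hP⟩

theorem IntPresOn.of_intPres {A : ValuationSubring Qb} {d : F →+* F} (h : IntPres A d)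
    (G : Set F) : IntPresOn A G d :=
  fun P hPm _ hP => h P hPm hP

theorem IntPresOn.mono {A : ValuationSubring Qb} {d : F →+* F} {G G' : Set F} (hGG : G' ⊆ G)
    (h : IntPresOn A G d) : IntPresOn A G' d :=
  fun P hPm hPG hP => h P hPm (hGG hPG) hP

theorem HasGaussNormOn.hasGaussNorm {A : ValuationSubring Qb} {G : Set F}
    (h : HasGaussNormOn F A G) : HasGaussNorm F A := fun f hf => by
  obtain ⟨c, P, Q, hPm, hQm, -, -, hc, hP, hQ, hfPQ⟩ := h f hf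
  exact ⟨c, P, Q, hPm, hQm, hc, hP, hQ, hfPQ⟩

theorem HasGaussNormOn.mono {A : ValuationSubring Qb} {G G' : Set F} (hGG : G ⊆ G')
    (h : HasGaussNormOn F A G) : HasGaussNormOn F A G' := fun f hf => by
  obtain ⟨c, P, Q, hPm, hQm, hPG, hQG, hc, hP, hQ, hfPQ⟩ := h f hf
  exact ⟨c, P, Q, hPm, hQm, hGG hPG, hGG hQG, hc, hP, hQ, hfPQ⟩

theorem hasGaussNormOn_univ {A : ValuationSubring Qb} (h : HasGaussNorm F A) :
    HasGaussNormOn F A Set.univ := fun f hf => by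
  obtain ⟨c, P, Q, hPm, hQm, hc, hP, hQ, hfPQ⟩ := h f hf
  exact ⟨c, P, Q, hPm, hQm, trivial, trivial, hc, hP, hQ, hfPQ⟩

/-- **(ES) with two twists**, Gauss normal forms in the class `G`: for `σ` a Frobenius at `A`
(over `ℓ`, `ℓ ∤ m`) and `f ∈ F` with `m ∣ div f`:  `σ²(d₁ f) · (d₂ f) ^ ℓ = T(σ f) · h ^ m`, where
`T x = heckeMul2 (d₁ x) (d₂ x) = (d₂ x)(q ^ ℓ) · ∏_{i<ℓ} (d₁ x)(zⁱ q^{1/ℓ})`. -/
theorem es_two_on (S : Setting F) {ℓ m : ℕ} [Fact ℓ.Prime] (hℓ : 0 < ℓ) (A : ValuationSubring Qb)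
    (hA : A.LiesOverPrime ℓ) (G : Set F) (hG : HasGaussNormOn F A G) (hK1 : K1 S ℓ A) (z : Qbˣ)
    (hz : IsPrimitiveRoot z ℓ) (d₁ d₂ : F →+* F) (h₁ : Twist S d₁) (h₂ : Twist S d₂)
    (hi₁ : IntPresOn A G d₁) (hi₂ : IntPresOn A G d₂)
    (hT : HeckeClosed2 S ℓ hℓ z d₁ d₂) (hℓm : ¬ ℓ ∣ m)
    {σ : Gq} (hσ : A.IsFrobeniusAt σ ℓ)
    (f : F) (hf : f ≠ 0) (hdiv : S.Dv m f) :
    ∃ h : F, h ≠ 0 ∧
      ((S.gal σ (S.gal σ (d₁ f)) : F) : LaurentSeries Qb) *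
          ((d₂ f : F) : LaurentSeries Qb) ^ ℓ =
        heckeMul2 ℓ hℓ z ((d₁ (S.gal σ f) : F) : LaurentSeries Qb)
            ((d₂ (S.gal σ f) : F) : LaurentSeries Qb) *
          (h : LaurentSeries Qb) ^ m := by
  obtain ⟨c, P, Q, hPm, hQm, hPG, hQG, hc, hP, hQ, hfPQ⟩ := hG f hf
  obtain ⟨P₁, hP₁e, hP₁⟩ := hi₁ P hPm hPG hP
  obtain ⟨Q₁, hQ₁e, hQ₁⟩ := hi₁ Q hQm hQG hQ
  obtain ⟨P₂, hP₂e, hP₂⟩ := hi₂ P hPm hPG hP
  obtain ⟨Q₂, hQ₂e, hQ₂⟩ := hi₂ Q hQm hQG hQ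
  exact es_two_core S hℓ A hA hK1 z hz d₁ d₂ h₁ h₂ hT hℓm hσ f hf hdiv c P Q hPm hQm hc hP hQ
    hfPQ P₁ Q₁ P₂ Q₂ hP₁e hP₁ hQ₁e hQ₁ hP₂e hP₂ hQ₂e hQ₂

/-- **(ES), diamond in the `q ^ ℓ` factor**: `σ²(f) · (δ f) ^ ℓ = T(σ f) · h ^ m` with
`T x = heckeMul2 x (δ x)`. -/
theorem es_dia_on (S : Setting F) {ℓ m : ℕ} [Fact ℓ.Prime] (hℓ : 0 < ℓ) (A : ValuationSubring Qb)
    (hA : A.LiesOverPrime ℓ) (G : Set F) (hG : HasGaussNormOn F A G) (hK1 : K1 S ℓ A) (z : Qbˣ)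
    (hz : IsPrimitiveRoot z ℓ) (δ : F →+* F) (hδ : Twist S δ) (hi : IntPresOn A G δ)
    (hT : HeckeClosed2 S ℓ hℓ z (RingHom.id F) δ) (hℓm : ¬ ℓ ∣ m)
    {σ : Gq} (hσ : A.IsFrobeniusAt σ ℓ)
    (f : F) (hf : f ≠ 0) (hdiv : S.Dv m f) :
    ∃ h : F, h ≠ 0 ∧
      ((S.gal σ (S.gal σ f) : F) : LaurentSeries Qb) * ((δ f : F) : LaurentSeries Qb) ^ ℓ =
        heckeMul2 ℓ hℓ z ((S.gal σ f : F) : LaurentSeries Qb)
            ((δ (S.gal σ f) : F) : LaurentSeries Qb) *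
          (h : LaurentSeries Qb) ^ m :=
  es_two_on S hℓ A hA G hG hK1 z hz (RingHom.id F) δ (Twist.id S) hδ (IntPresOn.id A G) hi hT
    hℓm hσ f hf hdiv

/-- **(ES), diamond in the norm factor**: `σ²(δ f) · f ^ ℓ = T'(σ f) · h ^ m` with
`T' x = heckeMul2 (δ x) x`. -/
theorem es_dia_on' (S : Setting F) {ℓ m : ℕ} [Fact ℓ.Prime] (hℓ : 0 < ℓ)
    (A : ValuationSubring Qb)
    (hA : A.LiesOverPrime ℓ) (G : Set F) (hG : HasGaussNormOn F A G) (hK1 : K1 S ℓ A) (z : Qbˣ)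
    (hz : IsPrimitiveRoot z ℓ) (δ : F →+* F) (hδ : Twist S δ) (hi : IntPresOn A G δ)
    (hT : HeckeClosed2 S ℓ hℓ z δ (RingHom.id F)) (hℓm : ¬ ℓ ∣ m)
    {σ : Gq} (hσ : A.IsFrobeniusAt σ ℓ)
    (f : F) (hf : f ≠ 0) (hdiv : S.Dv m f) :
    ∃ h : F, h ≠ 0 ∧
      ((S.gal σ (S.gal σ (δ f)) : F) : LaurentSeries Qb) * ((f : F) : LaurentSeries Qb) ^ ℓ =
        heckeMul2 ℓ hℓ z ((δ (S.gal σ f) : F) : LaurentSeries Qb)
            ((S.gal σ f : F) : LaurentSeries Qb) *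
          (h : LaurentSeries Qb) ^ m :=
  es_two_on S hℓ A hA G hG hK1 z hz δ (RingHom.id F) hδ (Twist.id S) hi (IntPresOn.id A G) hT
    hℓm hσ f hf hdiv

end Fermat.Agent.S48.G1.ES.ExitOn
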