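import Mathlib
import Fermat.Agent.S48.G1.ES.Exit
import Fermat.Agent.S48.G1.ES.Gauss1

/-!
# PROGRAM DS (S48), part G1, AREA ES — the exit with `Gauss1` discharged

`Gauss1 M` is a theorem (`ES/Gauss1.lean`, helper126), so the `unr` and `es` arguments of
`ToES1Quot.nonempty_es1Data` for `F1 M` follow from

* `K1_1 M`                      (AREA K),
* `DiaSpec M diaF`              (F.3),
* `HeckeSpecAt M diaF heckeF ℓ` (F.4; `q`-expansion formula for ONE primitive root of unity).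
-/

set_option autoImplicit false

open HahnSeries ModularCurve AlgebraicCurve

namespace Fermat.Agent.S48.G1.ES

open Fermat.Agent.S30 Fermat.Agent.S48.CongrD Fermat.Agent.S48.ExitD Fermat.Agent.S48.G1.F1
  Fermat.Agent.S48.G1.ToES1Quot

/-- **(Gauss1) holds** for every level. -/
theorem gauss1 (M : ℕ) : Gauss1 M := fun q hq _ A hA => by
  have : Fact q.Prime := ⟨hq⟩
  exact Gauss1.hasGaussNorm1 M q A hA

/-- **(HeckeSpecAt)** at the prime `ℓ`: for `u ≡ ℓ mod M` there is a primitive `ℓ`-th root of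
unity `z` with `heckeF ℓ x = (diaF u x)(q ^ ℓ) · ∏_{i<ℓ} x(zⁱ q^{1/ℓ})`, and `heckeF ℓ` preserves
`m ∣ div`. -/
def HeckeSpecAt (M : ℕ) (diaF : (ZMod M)ˣ → F1 M → F1 M) (heckeF : ℕ → F1 M → F1 M) (ℓ : ℕ) :
    Prop :=
  (∀ u : (ZMod M)ˣ, (u : ZMod M) = (ℓ : ZMod M) → ∃ (hℓ : 0 < ℓ) (z : Qbˣ),
      IsPrimitiveRoot z ℓ ∧ ∀ x : F1 M,
        ((heckeF ℓ x : F1 M) : LaurentSeries Qb) =
          heckeMul2 ℓ hℓ z (x : LaurentSeries Qb) ((diaF u x : F1 M) : LaurentSeries Qb)) ∧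
    ∀ (m : ℕ) (f : F1 M), f ≠ 0 → Div1 M m f → Div1 M m (heckeF ℓ f)

theorem heckeSpecAt_of_heckeSpec {M : ℕ} {diaF : (ZMod M)ˣ → F1 M → F1 M}
    {heckeF : ℕ → F1 M → F1 M} {ℓ : ℕ} (hℓ : 0 < ℓ) (h : HeckeSpec M diaF heckeF ℓ) :
    HeckeSpecAt M diaF heckeF ℓ := by
  obtain ⟨z, hz⟩ := exists_primitiveRoot_qb ℓ hℓ
  exact ⟨fun u hu => ⟨hℓ, z, hz, h.1 u hu hℓ z hz⟩, h.2⟩

/-- **(ES) with diamond for `F1 M`**, function form, from `K1_1`, `DiaSpec`, `HeckeSpecAt`. -/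
theorem es_funAt {M : ℕ} (hK : K1_1 M)
    (diaF : (ZMod M)ˣ → F1 M → F1 M) (heckeF : ℕ → F1 M → F1 M) (hD : DiaSpec M diaF)
    {ℓ m : ℕ} (hℓ : ℓ.Prime) (hℓM : ¬ ℓ ∣ M) (hH : HeckeSpecAt M diaF heckeF ℓ) (hℓm : ¬ ℓ ∣ m)
    (u : (ZMod M)ˣ) (hu : (u : ZMod M) = (ℓ : ZMod M))
    (A : ValuationSubring Qb) (hA : A.LiesOverPrime ℓ) {σ : GQ} (hσ : A.IsFrobeniusAt σ ℓ)
    (f : F1 M) (hf : f ≠ 0) (hdiv : Div1 M m f) :
    ∃ g : F1 M, g ≠ 0 ∧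
      galF1 M σ (galF1 M σ f) * diaF u f ^ ℓ = heckeF ℓ (galF1 M σ f) * g ^ m := by
  have : Fact ℓ.Prime := ⟨hℓ⟩
  obtain ⟨δ, hδ, hδg⟩ := hD u
  obtain ⟨hcoe', hdv⟩ := hH
  obtain ⟨hℓ0, z, hz, hcoe⟩ := hcoe' u hu
  have hT : HeckeClosed2 (placeSetting (F1Q M)) ℓ hℓ0 z (RingHom.id (F1 M))
      (δ : F1 M →+* F1 M) := by
    have hmem : ∀ x : F1 M, heckeMul2 ℓ hℓ0 z ((RingHom.id (F1 M) x : F1 M) : LaurentSeries Qb)
        (((δ : F1 M →+* F1 M) x : F1 M) : LaurentSeries Qb) ∈ F1 M := fun x => by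
      have h1 := hcoe x
      rw [hδ x] at h1
      show heckeMul2 ℓ hℓ0 z (x : LaurentSeries Qb) ((δ x : F1 M) : LaurentSeries Qb) ∈ F1 M
      rw [← h1]
      exact (heckeF ℓ x).2
    refine ⟨hmem, fun m' f' hf' hdv' => ?_⟩
    have h2 : (⟨_, hmem f'⟩ : F1 M) = heckeF ℓ f' := by
      apply Subtype.ext
      have h1 := hcoe f'
      rw [hδ f'] at h1
      exact h1.symm
    rw [h2]
    exact hdv m' f' hf' hdv'
  obtain ⟨g, hg0, hg⟩ := es_place (F1Q M) hℓ0 A hA (gauss1 M ℓ hℓ hℓM A hA) (hK ℓ hℓ hℓM A hA) z hz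
    δ hδg hT hℓm hσ f hf hdiv
  refine ⟨g, hg0, Subtype.ext ?_⟩
  have h3 := hcoe (galF1 M σ f)
  rw [hδ (galF1 M σ f)] at h3
  show ((galF1 M σ (galF1 M σ f) : F1 M) : LaurentSeries Qb) *
      ((diaF u f : F1 M) : LaurentSeries Qb) ^ ℓ =
    ((heckeF ℓ (galF1 M σ f) : F1 M) : LaurentSeries Qb) * (g : LaurentSeries Qb) ^ m
  rw [h3, hδ f]
  exact hg

section Consumer

variable {M p : ℕ} [hp : Fact p.Prime]

/-- **The `unr` argument of `ToES1Quot.nonempty_es1Data`** for `F1 M`, from `K1_1 M` alone. -/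
theorem unr_main (hK : K1_1 M) (K : KummerPairing p (F1 M) (galF1 M))
    (hR : ∀ (n : ℕ) {f : F1 M} {c : K.A →+ ZMod (p ^ n)}, K.R n f c → Div1 M (p ^ n) f) :
    ∀ q : ℕ, q.Prime → ¬ q ∣ M → q ≠ p →
      ∀ P : ValuationSubring (AlgebraicClosure ℚ), P.LiesOverPrime q →
        ∀ σ ∈ P.inertiaSubgroupIn ℚ, ∀ (n : ℕ) {f : F1 M} {c : K.A →+ ZMod (p ^ n)},
          K.R n f c → ∃ g : F1 M, galF1 M σ f = f * g ^ (p ^ n) :=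
  unr (gauss1 M) hK K hR

/-- **The `es` argument of `ToES1Quot.nonempty_es1Data`** for `F1 M`, from `K1_1 M`,
`DiaSpec` and `HeckeSpecAt`. -/
theorem es_main (hK : K1_1 M) (K : KummerPairing p (F1 M) (galF1 M))
    (hR : ∀ (n : ℕ) {f : F1 M} {c : K.A →+ ZMod (p ^ n)}, K.R n f c → Div1 M (p ^ n) f)
    (diaF : (ZMod M)ˣ → F1 M → F1 M) (heckeF : ℕ → F1 M → F1 M) (hD : DiaSpec M diaF)
    (hH : ∀ ℓ, Good M p ℓ → HeckeSpecAt M diaF heckeF ℓ) :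
    ∀ ℓ : ℕ, Good M p ℓ → ∀ u : (ZMod M)ˣ, (u : ZMod M) = (ℓ : ZMod M) →
      ∀ B : ValuationSubring (AlgebraicClosure ℚ), B.LiesOverPrime ℓ →
        ∀ σ : GQ, B.IsFrobeniusAt σ ℓ → ∀ (n : ℕ) {f : F1 M} {c : K.A →+ ZMod (p ^ n)},
          K.R n f c → ∃ g : F1 M,
            galF1 M σ (galF1 M σ f) * diaF u f ^ ℓ = heckeF ℓ (galF1 M σ f) * g ^ (p ^ n) := by
  intro ℓ hℓ u hu B hB σ hσ n f c hf
  obtain ⟨hℓp, hℓM, hℓne⟩ := hℓ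
  have hℓn : ¬ ℓ ∣ p ^ n := fun h =>
    hℓne ((Nat.prime_dvd_prime_iff_eq hℓp hp.out).1 (hℓp.dvd_of_dvd_pow h))
  obtain ⟨g, -, hg⟩ := es_funAt hK diaF heckeF hD hℓp hℓM (hH ℓ ⟨hℓp, hℓM, hℓne⟩) hℓn u hu B hB
    hσ f (K.ne_zero hf) (hR n hf)
  exact ⟨g, hg⟩

end Consumer

end Fermat.Agent.S48.G1.ES
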